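import Mathlib
import Fermat.Agent.S18.Alg.Spec

/-!
# S18 / ALG-ASM: enlarging a member of a good family (helper514)

Mathlib + frozen `Alg/Spec.lean` (v4) only.

* `GoodModel.w_div_mem_of_le`  : for good models `p ≤ p'` the uniformiser `w` of `p` is divisible by
  the uniformiser `w'` of `p'` in `R'`  (`w * w'⁻¹ ∈ R'`).
* `GoodFamily.exists_enlarge`  : a member can be enlarged so that `Ec` contains a given finite set
  of constants, keeping `m⁻¹ ∈ R`, `u ∈ Fc`, `(u - 1) / w ∈ V`.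
* `GoodFamily.exists_enlarge_primitiveRoot` : moreover `R'` contains a primitive `m`-th root of
  unity.
-/

set_option autoImplicit false

namespace Fermat.Agent.S18.H514

open Fermat.Agent.S18.Alg

variable {Ω : Type*} [Field Ω]

/-- For good models `(Ec,Fc,R,V,w) ≤ (Ec',Fc',R',V',w')` (only `R ≤ R'` is used),
`w` is divisible by `w'` in `R'`. -/
theorem w_div_mem_of_le {Lc Ec Fc Ec' Fc' : Subfield Ω} {R V R' V' : Subring Ω} {w w' x : Ω}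
    {S : Finset Ω} (h : GoodModel Lc Ec Fc R V w x S) (h' : GoodModel Lc Ec' Fc' R' V' w' x S)
    (hRR' : R ≤ R') : w * w'⁻¹ ∈ R' := by
  have := h.charZero
  by_contra hcon
  have hwR' : w ∈ R' := hRR' h.w_mem
  -- `w` is a unit of `R'`
  have hwinv : w⁻¹ ∈ R' := by
    by_contra hw
    exact hcon (h'.w_gen w hwR' hw)
  obtain ⟨ℓ, hℓ, hℓw', -⟩ := h'.residue_perfect
  have hℓ0 : (ℓ : Ω) ≠ 0 := Nat.cast_ne_zero.mpr hℓ.ne_zero
  have hℓE : (ℓ : Ω) ∈ Ec := natCast_mem Ec ℓ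
  -- it suffices to show that `ℓ⁻¹ ∈ R'`
  have key : ((ℓ : Ω))⁻¹ ∈ R' → False := by
    intro hinv
    apply h'.w_inv_not_mem
    have : w'⁻¹ = (ℓ : Ω) * w'⁻¹ * (ℓ : Ω)⁻¹ := by
      field_simp
    rw [this]
    exact R'.mul_mem hℓw' hinv
  rcases h.R_total _ hℓE with hℓR | hℓR
  · obtain ⟨n, hn1, hn2⟩ := h.w_discrete _ hℓR hℓ0
    apply key
    have : ((ℓ : Ω))⁻¹ = ((ℓ : Ω) * (w⁻¹) ^ n)⁻¹ * (w⁻¹) ^ n := by
      have hw0 := h.w_ne_zero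
      field_simp
    rw [this]
    exact R'.mul_mem (hRR' hn2) (R'.pow_mem hwinv n)
  · exact key (hRR' hℓR)

/-- Enlarging a member of a good family, keeping the hypotheses on `u`. -/
theorem exists_enlarge {Lc : Subfield Ω} {x : Ω} {S : Finset Ω} {𝓕 : Set (Model Ω)}
    (h𝓕 : GoodFamily Lc x S 𝓕) (p : Model Ω) (hp : p ∈ 𝓕) (m : ℕ)
    (hm : ((m : Ω))⁻¹ ∈ p.2.2.1) (u : Ω) (hu : u ∈ p.2.1)
    (hu1 : (u - 1) * (p.2.2.2.2)⁻¹ ∈ p.2.2.2.1)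
    (T : Finset Ω) (hT : ∀ a ∈ T, a ∈ Lc) :
    ∃ p' ∈ 𝓕, Model.le p p' ∧ (∀ a ∈ T, a ∈ p'.1) ∧ ((m : Ω))⁻¹ ∈ p'.2.2.1 ∧ u ∈ p'.2.1 ∧
      (u - 1) * (p'.2.2.2.2)⁻¹ ∈ p'.2.2.2.1 := by
  obtain ⟨p', hp', hle, hTp'⟩ := h𝓕.enlarge p hp T hT
  have hg := h𝓕.good p hp
  have hg' := h𝓕.good p' hp'
  obtain ⟨hE, hF, hR, hV⟩ := hle
  refine ⟨p', hp', ⟨hE, hF, hR, hV⟩, hTp', hR hm, hF hu, ?_⟩
  have hw := w_div_mem_of_le hg hg' hR
  have hw0 := hg.w_ne_zero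
  have : (u - 1) * (p'.2.2.2.2)⁻¹ =
      ((u - 1) * (p.2.2.2.2)⁻¹) * (p.2.2.2.2 * (p'.2.2.2.2)⁻¹) := by
    field_simp
  rw [this]
  exact (p'.2.2.2.1).mul_mem (hV hu1) (hg'.R_le_V hw)

/-- A primitive `m`-th root of unity in the algebraically closed constant field. -/
theorem exists_primitiveRoot_mem {Lc Ec Fc : Subfield Ω} {R V : Subring Ω} {w x : Ω}
    {S : Finset Ω} (h : GoodModel Lc Ec Fc R V w x S) (m : ℕ) (hm : m ≠ 0) :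
    ∃ ζ : Ω, ζ ∈ Lc ∧ IsPrimitiveRoot ζ m := by
  have := h.charZero
  have := h.L_algClosed
  have : NeZero ((m : ℕ) : Lc) := ⟨Nat.cast_ne_zero.mpr hm⟩
  have : NeZero m := ⟨hm⟩
  obtain ⟨ζ, hζ⟩ := HasEnoughRootsOfUnity.exists_primitiveRoot Lc m
  exact ⟨(ζ : Ω), ζ.2, hζ.map_of_injective (f := Lc.subtype) Subtype.val_injective⟩

/-- In a good model, a root of unity lying in `Ec` lies in `R`. -/
theorem rootOfUnity_mem_R {Lc Ec Fc : Subfield Ω} {R V : Subring Ω} {w x : Ω}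
    {S : Finset Ω} (h : GoodModel Lc Ec Fc R V w x S) {m : ℕ} (hm : m ≠ 0) {ζ : Ω}
    (hζE : ζ ∈ Ec) (hζ : ζ ^ m = 1) : ζ ∈ R := by
  rcases h.R_total ζ hζE with h1 | h1
  · exact h1
  · have : ζ = (ζ⁻¹) ^ (m - 1) := by
      have hζ0 : ζ ≠ 0 := by
        rintro rfl
        rw [zero_pow hm] at hζ
        exact zero_ne_one hζ
      have h2 : ζ ^ (m - 1) * ζ = 1 := by
        rw [← pow_succ]
        have : m - 1 + 1 = m := by omega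
        rw [this, hζ]
      rw [inv_pow]
      field_simp
      rw [mul_comm]
      exact h2
    rw [this]
    exact R.pow_mem h1 _

/-- Enlarging a member of a good family so that `R` contains a primitive `m`-th root of unity
and `Ec` a given finite set of constants, keeping the hypotheses on `u`. -/
theorem exists_enlarge_primitiveRoot {Lc : Subfield Ω} {x : Ω} {S : Finset Ω}
    {𝓕 : Set (Model Ω)} (h𝓕 : GoodFamily Lc x S 𝓕) (p : Model Ω) (hp : p ∈ 𝓕) (m : ℕ)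
    (hm0 : m ≠ 0) (hm : ((m : Ω))⁻¹ ∈ p.2.2.1) (u : Ω) (hu : u ∈ p.2.1)
    (hu1 : (u - 1) * (p.2.2.2.2)⁻¹ ∈ p.2.2.2.1)
    (T : Finset Ω) (hT : ∀ a ∈ T, a ∈ Lc) :
    ∃ p' ∈ 𝓕, Model.le p p' ∧ (∀ a ∈ T, a ∈ p'.1) ∧ ((m : Ω))⁻¹ ∈ p'.2.2.1 ∧ u ∈ p'.2.1 ∧
      (u - 1) * (p'.2.2.2.2)⁻¹ ∈ p'.2.2.2.1 ∧
      ∃ ζ ∈ p'.2.2.1, IsPrimitiveRoot ζ m := by
  classical
  obtain ⟨ζ, hζL, hζ⟩ := exists_primitiveRoot_mem (h𝓕.good p hp) m hm0
  obtain ⟨p', hp', hle, hTp', h1, h2, h3⟩ := exists_enlarge h𝓕 p hp m hm u hu hu1 (insert ζ T)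
    (by
      intro a ha
      rcases Finset.mem_insert.mp ha with rfl | ha
      · exact hζL
      · exact hT a ha)
  refine ⟨p', hp', hle, fun a ha => hTp' a (Finset.mem_insert_of_mem ha), h1, h2, h3, ζ, ?_, hζ⟩
  exact rootOfUnity_mem_R (h𝓕.good p' hp') hm0 (hTp' ζ (Finset.mem_insert_self ζ T)) hζ.pow_eq_one

/-- **Reduction (E).**  `AlgMainStatement` follows from its special case for members whose
ring `R` contains a primitive `m`-th root of unity (and, if wished, any finite set `T u` of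
constants depending on `u`). -/
theorem algMainStatement_of_primitiveRoot (Lc : Subfield Ω) (x : Ω) (S : Finset Ω)
    (𝓕 : Set (Model Ω)) (T : Ω → Finset Ω) (hT : ∀ u, ∀ a ∈ T u, a ∈ Lc)
    (H : GoodFamily Lc x S 𝓕 →
      ∀ p ∈ 𝓕, ∀ m : ℕ, m.Prime → ((m : Ω))⁻¹ ∈ p.2.2.1 →
      (∃ ζ ∈ p.2.2.1, IsPrimitiveRoot ζ m) →
      ∀ u ∈ p.2.1, (∀ a ∈ T u, a ∈ p.1) → u ≠ 0 → (u - 1) * (p.2.2.2.2)⁻¹ ∈ p.2.2.2.1 →
        (∀ O : ValuationSubring Ω, (∀ a ∈ Lc, a ∈ O) →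
          ∃ t : Ω, t ≠ 0 ∧ u * t ^ m ∈ O ∧ (u * t ^ m)⁻¹ ∈ O) →
        ∃ y : Ω, ∃ c ∈ Lc, c ≠ 0 ∧ u = c * y ^ m) :
    AlgMainStatement Lc x S 𝓕 := by
  intro h𝓕 p hp m hm hmR u hu hu0 hu1 hO
  obtain ⟨p', hp', -, hTp', h1, h2, h3, hζ⟩ :=
    exists_enlarge_primitiveRoot h𝓕 p hp m hm.ne_zero hmR u hu hu1 (T u) (hT u)
  exact H h𝓕 p' hp' m hm h1 hζ u h2 hTp' hu0 h3 hO

end Fermat.Agent.S18.H514
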