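import Mathlib

/-!
# S18, route K, piece b3/P3: the Kummer order `R[y]`, `y ^ m = ε`, is integrally closed

Mathlib-only.  Setting: `R` integrally closed domain, `K = Frac R`, `L = K(y)`
(`pb : PowerBasis K L`, `y = pb.gen`), `y ^ m = ε` with `ε, m ∈ Rˣ`.

* `kummer_isSeparable`      : `L / K` is separable.
* `kummer_discr_unit`       : the discriminant of `1, y, …, y ^ (d-1)` is (the image of) a unit of `R`.
* `kummer_mem_adjoin`       : every element of `L` integral over `R` lies in `R[y]`.
* `kummer_repr_mem`         : the coordinates of an integral element in the power basis lie in `R`.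
-/

set_option autoImplicit false
set_option linter.unusedSectionVars false

open Polynomial

namespace Fermat.Agent.S18.H514

section Kummer

variable {R K L : Type*} [CommRing R] [IsDomain R] [IsIntegrallyClosed R]
variable [Field K] [Algebra R K] [IsFractionRing R K]
variable [Field L] [Algebra K L] [Algebra R L] [IsScalarTower R K L]

omit [IsIntegrallyClosed R] in
theorem kummer_m_ne_zero (m : ℕ) (hm : IsUnit (m : R)) : m ≠ 0 := by
  rintro rfl
  simp at hm

omit [IsIntegrallyClosed R] in
theorem kummer_natCast_ne_zero (m : ℕ) (hm : IsUnit (m : R)) : (m : K) ≠ 0 := by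
  have h := (hm.map (algebraMap R K)).ne_zero
  simpa using h

omit [IsIntegrallyClosed R] [IsDomain R] [IsFractionRing R K] in
theorem kummer_isIntegral (m : ℕ) (hm0 : m ≠ 0) (ε : R) (y : L)
    (hy : y ^ m = algebraMap R L ε) : IsIntegral R y := by
  refine ⟨X ^ m - C ε, monic_X_pow_sub_C ε hm0, ?_⟩
  simp [hy]

omit [IsIntegrallyClosed R] in
theorem kummer_isSeparable_gen (m : ℕ) (hm : IsUnit (m : R)) (ε : Rˣ) (y : L)
    (hy : y ^ m = algebraMap R L ε) : IsSeparable K y := by
  have hε : algebraMap R K ε ≠ 0 := (ε.isUnit.map (algebraMap R K)).ne_zero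
  have hsep : (X ^ m - C (algebraMap R K ε) : K[X]).Separable :=
    separable_X_pow_sub_C _ (kummer_natCast_ne_zero m hm) hε
  have hroot : aeval y (X ^ m - C (algebraMap R K ε) : K[X]) = 0 := by
    simp [hy, IsScalarTower.algebraMap_apply R K L]
  exact hsep.of_dvd (minpoly.dvd K y hroot)

omit [IsIntegrallyClosed R] in
theorem kummer_isSeparable (m : ℕ) (hm : IsUnit (m : R)) (ε : Rˣ) (pb : PowerBasis K L)
    (hy : pb.gen ^ m = algebraMap R L ε) : Algebra.IsSeparable K L := by
  rw [← separableClosure.eq_top_iff]
  have h1 : pb.gen ∈ separableClosure K L :=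
    mem_separableClosure_iff.mpr (kummer_isSeparable_gen m hm ε pb.gen hy)
  have h2 : IntermediateField.adjoin K {pb.gen} = ⊤ :=
    IntermediateField.adjoin_eq_top_of_algebra K _ pb.adjoin_gen_eq_top
  rw [eq_top_iff, ← h2]
  exact IntermediateField.adjoin_simple_le_iff.mpr h1

variable (K) in
include K in
omit [IsIntegrallyClosed R] in
theorem kummer_isTorsionFree : Module.IsTorsionFree R L := by
  rw [Module.isTorsionFree_iff_algebraMap_injective, IsScalarTower.algebraMap_eq R K L]
  exact (algebraMap K L).injective.comp (IsFractionRing.injective R K)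

omit [IsIntegrallyClosed R] [IsDomain R] [IsFractionRing R K] in
theorem isIntegral_aeval_of_isIntegral {x : L} (hx : IsIntegral R x) (P : R[X]) :
    IsIntegral R (aeval x P) :=
  adjoin_le_integralClosure hx (aeval_mem_adjoin_singleton R x)

/-- An element of `K` integral over `R` whose power is a unit of `R` is a unit of `R`. -/
theorem exists_unit_of_isIntegral_of_pow {x : K} (hx : IsIntegral R x) (n : ℕ) (hn : n ≠ 0)
    (δ : Rˣ) (h : x ^ n = algebraMap R K δ) : ∃ ν : Rˣ, algebraMap R K ν = x := by
  obtain ⟨r, rfl⟩ := IsIntegrallyClosed.isIntegral_iff.mp hx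
  have h1 : r ^ n = δ := by
    apply IsFractionRing.injective R K
    rw [map_pow, h]
  have hu : IsUnit r := by
    have : IsUnit (r ^ n) := by rw [h1]; exact δ.isUnit
    exact (isUnit_pow_iff hn).mp this
  exact ⟨hu.unit, rfl⟩

/-- (K1a) The discriminant of the power basis of a Kummer extension by an `m`-th root of a unit
(`m` a unit) is a unit of `R`. -/
theorem kummer_discr_unit (m : ℕ) (hm : IsUnit (m : R)) (ε : Rˣ) (pb : PowerBasis K L)
    (hy : pb.gen ^ m = algebraMap R L ε) :
    ∃ δ : Rˣ, algebraMap R K δ = Algebra.discr K pb.basis := by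
  classical
  have hm0 := kummer_m_ne_zero m hm
  have : Algebra.IsSeparable K L := kummer_isSeparable m hm ε pb hy
  have : FiniteDimensional K L := pb.finite
  have : Module.IsTorsionFree R L := kummer_isTorsionFree K
  have hint : IsIntegral R pb.gen := kummer_isIntegral m hm0 (ε : R) pb.gen hy
  -- the minimal polynomial over `R`
  set g : R[X] := minpoly R pb.gen with hg
  have hgK : minpoly K pb.gen = g.map (algebraMap R K) :=
    minpoly.isIntegrallyClosed_eq_field_fractions' K hint
  have hroot : aeval pb.gen (X ^ m - C (ε : R) : R[X]) = 0 := by simp [hy]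
  obtain ⟨h, hh⟩ := minpoly.isIntegrallyClosed_dvd hint hroot
  -- derivative identity evaluated at `y`
  have hder : aeval pb.gen (derivative g) * aeval pb.gen h =
      algebraMap R L (m : R) * pb.gen ^ (m - 1) := by
    have h1 : derivative (X ^ m - C (ε : R) : R[X]) = derivative g * h + g * derivative h := by
      rw [hh, derivative_mul]
    have h2 : aeval pb.gen (derivative (X ^ m - C (ε : R) : R[X])) =
        algebraMap R L (m : R) * pb.gen ^ (m - 1) := by
      simp [derivative_X_pow]
    rw [← h2, h1, map_add, map_mul, map_mul, hg, minpoly.aeval, zero_mul, add_zero]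
  -- norms are integral, hence in `R`
  obtain ⟨a, ha⟩ := IsIntegrallyClosed.isIntegral_iff.mp
    (Algebra.isIntegral_norm K (isIntegral_aeval_of_isIntegral hint (derivative g)))
  obtain ⟨b, hb⟩ := IsIntegrallyClosed.isIntegral_iff.mp
    (Algebra.isIntegral_norm K (isIntegral_aeval_of_isIntegral hint h))
  -- the norm of `y` is a unit
  have hNy : (Algebra.norm K pb.gen) ^ m = algebraMap R K ((ε ^ Module.finrank K L : Rˣ) : R) := by
    rw [← map_pow, hy, IsScalarTower.algebraMap_apply R K L, Algebra.norm_algebraMap]
    simp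
  obtain ⟨ν, hν⟩ := exists_unit_of_isIntegral_of_pow (Algebra.isIntegral_norm K hint) m hm0 _ hNy
  -- product of the two norms
  have hprod : algebraMap R K (a * b) =
      algebraMap R K ((m : R) ^ Module.finrank K L * (ν : R) ^ (m - 1)) := by
    rw [map_mul, ha, hb, ← map_mul, hder, map_mul, map_pow, IsScalarTower.algebraMap_apply R K L,
      Algebra.norm_algebraMap, ← hν]
    simp
  have hab : a * b = (m : R) ^ Module.finrank K L * (ν : R) ^ (m - 1) :=
    IsFractionRing.injective R K hprod
  have hau : IsUnit a := by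
    have : IsUnit (a * b) := by
      rw [hab]
      exact (hm.pow _).mul (ν.isUnit.pow _)
    exact isUnit_of_mul_isUnit_left this
  refine ⟨(-1) ^ (Module.finrank K L * (Module.finrank K L - 1) / 2) * hau.unit, ?_⟩
  have hd : aeval pb.gen (derivative (g.map (algebraMap R K))) = aeval pb.gen (derivative g) := by
    rw [derivative_map, aeval_map_algebraMap]
  rw [Algebra.discr_powerBasis_eq_norm, hgK, hd, ← ha]
  simp

/-- (K1b) In the situation of `kummer_discr_unit`, `R[y]` is the integral closure of `R` in `L`. -/
theorem kummer_mem_adjoin (m : ℕ) (hm : IsUnit (m : R)) (ε : Rˣ) (pb : PowerBasis K L)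
    (hy : pb.gen ^ m = algebraMap R L ε) {z : L} (hz : IsIntegral R z) :
    z ∈ Algebra.adjoin R ({pb.gen} : Set L) := by
  have hm0 := kummer_m_ne_zero m hm
  have : Algebra.IsSeparable K L := kummer_isSeparable m hm ε pb hy
  have : FiniteDimensional K L := pb.finite
  have hint : IsIntegral R pb.gen := kummer_isIntegral m hm0 (ε : R) pb.gen hy
  obtain ⟨δ, hδ⟩ := kummer_discr_unit m hm ε pb hy
  have h1 := Algebra.discr_mul_isIntegral_mem_adjoin K hint hz
  rw [← hδ] at h1
  have h2 : z = ((δ⁻¹ : Rˣ) : R) • (algebraMap R K (δ : R) • z) := by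
    rw [algebraMap_smul, smul_smul]
    simp
  rw [h2]
  exact Subalgebra.smul_mem _ h1 _

/-- The minimal polynomial over `R` of the generator has degree `pb.dim`. -/
theorem kummer_natDegree_minpoly (pb : PowerBasis K L) (hint : IsIntegral R pb.gen) :
    (minpoly R pb.gen).natDegree = pb.dim := by
  have h1 : minpoly K pb.gen = (minpoly R pb.gen).map (algebraMap R K) :=
    minpoly.isIntegrallyClosed_eq_field_fractions' K hint
  have h2 := pb.natDegree_minpoly
  rw [h1, (minpoly.monic hint).natDegree_map] at h2
  exact h2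

/-- Elements of `R[y]` have coordinates in `R` with respect to the power basis. -/
theorem repr_mem_of_mem_adjoin (pb : PowerBasis K L) (hint : IsIntegral R pb.gen) {z : L}
    (hz : z ∈ Algebra.adjoin R ({pb.gen} : Set L)) (i : Fin pb.dim) :
    ∃ r : R, algebraMap R K r = pb.basis.repr z i := by
  classical
  rw [Algebra.adjoin_singleton_eq_range_aeval] at hz
  obtain ⟨P, rfl⟩ := hz
  set g := minpoly R pb.gen with hg
  have hgm : g.Monic := minpoly.monic hint
  have hdeg : g.natDegree = pb.dim := kummer_natDegree_minpoly pb hint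
  have hdpos : 0 < pb.dim := pb.dim_pos
  set Q := P %ₘ g with hQ
  have hQdeg : Q.natDegree < pb.dim := by
    rw [← hdeg]
    have hg1 : g ≠ 1 := by
      intro h1
      rw [h1, natDegree_one] at hdeg
      omega
    exact natDegree_modByMonic_lt P hgm hg1
  have hPQ : aeval pb.gen P = aeval pb.gen Q := by
    have h1 : P = Q + g * (P /ₘ g) := (modByMonic_add_div P g).symm
    conv_lhs => rw [h1]
    rw [map_add, map_mul, hg, minpoly.aeval, zero_mul, add_zero]
  have hsum : aeval pb.gen Q = ∑ j : Fin pb.dim, algebraMap R K (Q.coeff j) • pb.basis j := by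
    rw [aeval_eq_sum_range' hQdeg, Finset.sum_range]
    refine Finset.sum_congr rfl fun j _ => ?_
    rw [pb.basis_eq_pow, algebraMap_smul]
  refine ⟨Q.coeff i, ?_⟩
  change _ = pb.basis.repr (aeval pb.gen P) i
  rw [hPQ, hsum, pb.basis.repr_sum_self]

/-- (K1c) In the Kummer situation the coordinates of an integral element lie in `R`. -/
theorem kummer_repr_mem (m : ℕ) (hm : IsUnit (m : R)) (ε : Rˣ) (pb : PowerBasis K L)
    (hy : pb.gen ^ m = algebraMap R L ε) {z : L} (hz : IsIntegral R z) (i : Fin pb.dim) :
    ∃ r : R, algebraMap R K r = pb.basis.repr z i :=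
  repr_mem_of_mem_adjoin pb (kummer_isIntegral m (kummer_m_ne_zero m hm) (ε : R) pb.gen hy)
    (kummer_mem_adjoin m hm ε pb hy hz) i

end Kummer

end Fermat.Agent.S18.H514
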