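import Mathlib
import Fermat.Agent.S18.H334.LocalUFD
import Fermat.Agent.S18.H514.KummerOrder

/-!
# S18, route K, pieces P4 (local lift and local unmixedness of the Kummer cover)

Local setting: `R` a noetherian local integrally closed domain, `ϖ ∈ R` a prime element with
`R ⧸ (ϖ)` a principal ideal ring (regular special fibre), `K = Frac R`.
`u ∈ K` with `u ≡ 1 mod ϖ` and divisor divisible by `p`.

* `local_normal_form` : `u * T ^ p = ε * S ^ p` with `ε ∈ Rˣ`, `S, T ∈ R ∖ ϖR`, `S ≡ ρ T mod ϖ`,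
  `ρ ∈ Rˣ`.
-/

set_option autoImplicit false
set_option linter.unusedSectionVars false

open Polynomial

namespace Fermat.Agent.S18.H514

section Local

variable {R : Type*} [CommRing R] [IsDomain R] [IsNoetherianRing R] [IsLocalRing R]
variable {K : Type*} [Field K] [Algebra R K] [IsFractionRing R K]

/-- Multiplicity form of the divisibility of the divisor of `u = a / s`. -/
theorem dvd_multiplicity_sub [UniqueFactorizationMonoid R] (p : ℕ) (hp0 : p ≠ 0) (u : K)
    (a s : R) (hs0 : s ≠ 0) (ha0 : a ≠ 0) (hu : u * algebraMap R K s = algebraMap R K a)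
    (f : R) (hf : Prime f)
    (hdiv : ∃ t : K, ∃ a' s' : R, ¬ f ∣ a' ∧ ¬ f ∣ s' ∧
        u * t ^ p * algebraMap R K s' = algebraMap R K a') :
    (p : ℤ) ∣ (multiplicity f a : ℤ) - (multiplicity f s : ℤ) := by
  obtain ⟨t, a', s', ha'f, hs'f, ht⟩ := hdiv
  obtain ⟨t₁, t₂, ht₂, rfl⟩ := IsFractionRing.div_surjective (A := R) t
  have ht₂0 : t₂ ≠ 0 := nonZeroDivisors.ne_zero ht₂
  have ha'0 : a' ≠ 0 := fun h => ha'f (h ▸ dvd_zero f)
  have hs'0 : s' ≠ 0 := fun h => hs'f (h ▸ dvd_zero f)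
  have hinj := IsFractionRing.injective R K
  have hKs : algebraMap R K s ≠ 0 := fun h => hs0 (hinj (by rw [h, map_zero]))
  have hKt₂ : algebraMap R K t₂ ≠ 0 := fun h => ht₂0 (hinj (by rw [h, map_zero]))
  have key : a * t₁ ^ p * s' = a' * s * t₂ ^ p := by
    apply hinj
    simp only [map_mul, map_pow]
    rw [← ht, ← hu, div_pow]
    field_simp
  have ht₁0 : t₁ ≠ 0 := by
    rintro rfl
    rw [zero_pow hp0, mul_zero, zero_mul] at key
    exact mul_ne_zero (mul_ne_zero ha'0 hs0) (pow_ne_zero _ ht₂0) key.symm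
  have fin : ∀ x : R, x ≠ 0 → FiniteMultiplicity f x :=
    fun x hx => FiniteMultiplicity.of_prime_left hf hx
  have h1 : multiplicity f (a * t₁ ^ p * s') =
      multiplicity f a + p * multiplicity f t₁ := by
    rw [multiplicity_mul hf (fin _ (mul_ne_zero (mul_ne_zero ha0 (pow_ne_zero _ ht₁0)) hs'0)),
      multiplicity_mul hf (fin _ (mul_ne_zero ha0 (pow_ne_zero _ ht₁0))),
      (fin _ ht₁0).multiplicity_pow hf, multiplicity_eq_zero.mpr hs'f, add_zero]
  have h2 : multiplicity f (a' * s * t₂ ^ p) =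
      multiplicity f s + p * multiplicity f t₂ := by
    rw [multiplicity_mul hf (fin _ (mul_ne_zero (mul_ne_zero ha'0 hs0) (pow_ne_zero _ ht₂0))),
      multiplicity_mul hf (fin _ (mul_ne_zero ha'0 hs0)),
      (fin _ ht₂0).multiplicity_pow hf, multiplicity_eq_zero.mpr ha'f, zero_add]
  rw [key, h2] at h1
  refine ⟨(multiplicity f t₂ : ℤ) - (multiplicity f t₁ : ℤ), ?_⟩
  have h3 : ((multiplicity f s : ℤ) + p * multiplicity f t₂) =
      (multiplicity f a : ℤ) + p * multiplicity f t₁ := by exact_mod_cast h1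
  linarith

/-- In a local ring, an element which is a unit modulo a non-unit is a unit. -/
theorem isUnit_of_dvd_mul_sub_one (ϖ : R) (hϖ : ¬ IsUnit ϖ) (x y : R) (h : ϖ ∣ x * y - 1) :
    IsUnit x := by
  by_contra hx
  have hx' : x ∈ IsLocalRing.maximalIdeal R := (IsLocalRing.mem_maximalIdeal x).mpr hx
  have hϖ' : ϖ ∈ IsLocalRing.maximalIdeal R := (IsLocalRing.mem_maximalIdeal ϖ).mpr hϖ
  have h1 : x * y - 1 ∈ IsLocalRing.maximalIdeal R := Ideal.mem_of_dvd _ h hϖ'
  have h2 : x * y ∈ IsLocalRing.maximalIdeal R := Ideal.mul_mem_right _ _ hx'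
  have h3 : (1 : R) ∈ IsLocalRing.maximalIdeal R := by
    have := Ideal.sub_mem _ h2 h1
    simpa using this
  exact (Ideal.ne_top_iff_one _).mp (IsLocalRing.maximalIdeal.isMaximal R).ne_top h3

/-- **Local normal form.**  `u * T ^ p = ε * S ^ p` with `ε` a unit, `S`, `T` prime to `ϖ` and
`S ≡ ρ T mod ϖ` for a unit `ρ`. -/
theorem local_normal_form (ϖ : R) (hϖ : Prime ϖ) [IsPrincipalIdealRing (R ⧸ Ideal.span {ϖ})]
    (p : ℕ) (hp0 : p ≠ 0) (u : K)
    (hu1 : ∃ a s : R, ¬ ϖ ∣ s ∧ ϖ ∣ a - s ∧ u * algebraMap R K s = algebraMap R K a)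
    (hdiv : ∀ f : R, Prime f → ∃ t : K, ∃ a s : R, ¬ f ∣ a ∧ ¬ f ∣ s ∧
        u * t ^ p * algebraMap R K s = algebraMap R K a) :
    ∃ (ε ρ : Rˣ) (S T : R), ¬ ϖ ∣ S ∧ ¬ ϖ ∣ T ∧ ϖ ∣ S - ρ * T ∧
      u * algebraMap R K T ^ p = algebraMap R K ε * algebraMap R K S ^ p := by
  classical
  have hprime : (Ideal.span {ϖ}).IsPrime := (Ideal.span_singleton_prime hϖ.ne_zero).mpr hϖ
  have : IsDomain (R ⧸ Ideal.span {ϖ}) := Ideal.Quotient.isDomain _
  have : UniqueFactorizationMonoid R := H334.ufm_of_quotient_pir ϖ hϖ.ne_zero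
  obtain ⟨a, s, hs, has, hu⟩ := hu1
  have hs0 : s ≠ 0 := fun h => hs (h ▸ dvd_zero ϖ)
  have ha : ¬ ϖ ∣ a := fun h => hs (by simpa using dvd_sub h has)
  have ha0 : a ≠ 0 := fun h => ha (h ▸ dvd_zero ϖ)
  have hinj := IsFractionRing.injective R K
  have hKs : algebraMap R K s ≠ 0 := fun h => hs0 (hinj (by rw [h, map_zero]))
  obtain ⟨ε, S, T, hS0, hT0, hcop, heq⟩ := H334.exists_kummer_normal_form p hp0 a s ha0 hs0
    (fun f hf => dvd_multiplicity_sub p hp0 u a s hs0 ha0 hu f hf (hdiv f hf))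
  -- `ϖ` divides neither `S` nor `T`
  have hST : ¬ (ϖ ∣ S ∧ ϖ ∣ T) := fun h => hϖ.not_isUnit (hcop h.1 h.2)
  have hTS : ϖ ∣ T → ϖ ∣ S := by
    intro hT
    have h1 : ϖ ∣ (ε : R) * s * S ^ p := by
      rw [← heq]
      exact Dvd.dvd.mul_left (dvd_pow hT hp0) a
    rcases hϖ.dvd_or_dvd h1 with h2 | h2
    · rcases hϖ.dvd_or_dvd h2 with h3 | h3
      · exact absurd (isUnit_of_dvd_unit h3 ε.isUnit) hϖ.not_isUnit
      · exact absurd h3 hs
    · exact hϖ.dvd_of_dvd_pow h2
  have hSnot : ¬ ϖ ∣ S := by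
    intro hSd
    have h1 : ϖ ∣ a * T ^ p := by
      rw [heq]
      exact Dvd.dvd.mul_left (dvd_pow hSd hp0) _
    rcases hϖ.dvd_or_dvd h1 with h2 | h2
    · exact ha h2
    · exact hST ⟨hSd, hϖ.dvd_of_dvd_pow h2⟩
  have hTnot : ¬ ϖ ∣ T := fun hT => hSnot (hTS hT)
  -- reduction modulo `ϖ`
  set q := Ideal.Quotient.mk (Ideal.span {ϖ}) with hq
  have hqdvd : ∀ x : R, q x = 0 ↔ ϖ ∣ x := fun x => by
    rw [hq, Ideal.Quotient.eq_zero_iff_mem, Ideal.mem_span_singleton]
  have hqa : q a = q s := by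
    have := (hqdvd (a - s)).mpr has
    rwa [map_sub, sub_eq_zero] at this
  have hqs : q s ≠ 0 := fun h => hs ((hqdvd s).mp h)
  have hqeq : q T ^ p = q (ε : R) * q S ^ p := by
    have h1 : q a * q T ^ p = q (ε : R) * q s * q S ^ p := by
      rw [← map_pow, ← map_pow, ← map_mul, ← map_mul, ← map_mul, heq]
    rw [hqa] at h1
    have h2 : q s * q T ^ p = q s * (q (ε : R) * q S ^ p) := by rw [h1]; ring
    exact mul_left_cancel₀ hqs h2
  have hεu : IsUnit (q (ε : R)) := ε.isUnit.map q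
  have hdvd : q T ^ p ∣ q S ^ p := by
    obtain ⟨v, hv⟩ := hεu
    refine ⟨(↑v⁻¹ : R ⧸ Ideal.span {ϖ}), ?_⟩
    rw [hqeq, ← hv]
    rw [mul_comm (v : R ⧸ Ideal.span {ϖ}), mul_assoc, Units.mul_inv, mul_one]
  have hdvd' : q T ∣ q S := (IsIntegrallyClosed.pow_dvd_pow_iff hp0).mp hdvd
  obtain ⟨ρ', hρ'⟩ := hdvd'
  obtain ⟨ρ, rfl⟩ := Ideal.Quotient.mk_surjective ρ'
  have hρT : ϖ ∣ S - ρ * T := by
    rw [← hqdvd, map_sub, map_mul, hρ', mul_comm, sub_self]
  -- `ρ` is a unit
  have hqT : q T ≠ 0 := fun h => hTnot ((hqdvd T).mp h)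
  have hρu : IsUnit ρ := by
    have h1 : q T ^ p * (q (ε : R) * q ρ ^ p) = q T ^ p * 1 := by
      rw [mul_one]
      conv_rhs => rw [hqeq, hρ']
      ring
    have h2 : q (ε : R) * q ρ ^ p = 1 := mul_left_cancel₀ (pow_ne_zero _ hqT) h1
    have h3 : ϖ ∣ ρ * ((ε : R) * ρ ^ (p - 1)) - 1 := by
      rw [← hqdvd, map_sub, map_one, map_mul, map_mul, map_pow, sub_eq_zero, ← h2]
      have : q ρ ^ p = q ρ * q ρ ^ (p - 1) := by
        rw [← pow_succ']
        congr 1
        omega
      rw [this]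
      ring
    exact isUnit_of_dvd_mul_sub_one ϖ hϖ.not_isUnit ρ _ h3
  refine ⟨ε, hρu.unit, S, T, hSnot, hTnot, hρT, ?_⟩
  have h1 : algebraMap R K a * algebraMap R K T ^ p =
      algebraMap R K ε * algebraMap R K s * algebraMap R K S ^ p := by
    rw [← map_pow, ← map_pow, ← map_mul, ← map_mul, ← map_mul, heq]
  rw [← hu] at h1
  have h2 : algebraMap R K s * (u * algebraMap R K T ^ p) =
      algebraMap R K s * (algebraMap R K ε * algebraMap R K S ^ p) := by
    rw [← mul_assoc, mul_comm (algebraMap R K s) u, h1]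
    ring
  exact mul_left_cancel₀ hKs h2

variable {L : Type*} [Field L] [Algebra K L] [Algebra R L] [IsScalarTower R K L]

/-- The element `θ = z T / S` with `θ ^ p = ε`. -/
theorem theta_pow (p : ℕ) (u : K) (z : L) (hz : z ^ p = algebraMap K L u)
    (ε : Rˣ) (S T : R) (hS0 : S ≠ 0)
    (h : u * algebraMap R K T ^ p = algebraMap R K ε * algebraMap R K S ^ p) :
    (z * algebraMap R L T / algebraMap R L S) ^ p = algebraMap R L ε := by
  have hinj : Function.Injective (algebraMap R L) := by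
    rw [IsScalarTower.algebraMap_eq R K L]
    exact (algebraMap K L).injective.comp (IsFractionRing.injective R K)
  have hS : algebraMap R L S ≠ 0 := fun h0 => hS0 (hinj (by rw [h0, map_zero]))
  have h' := congrArg (algebraMap K L) h
  simp only [map_mul, map_pow, ← IsScalarTower.algebraMap_apply R K L] at h'
  rw [div_pow, mul_pow, hz, h', mul_div_assoc, div_self (pow_ne_zero _ hS), mul_one]

/-- **Local lift.**  The Kummer idempotent `e_η = p⁻¹ ∑ η^a z^a` is congruent modulo `ϖ O'` to an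
element integral over `R`. -/
theorem local_lift (ϖ : R) (hϖ : Prime ϖ) [IsPrincipalIdealRing (R ⧸ Ideal.span {ϖ})]
    (p : ℕ) (hpu : IsUnit (p : R)) (u : K) (z : L) (hz : z ^ p = algebraMap K L u)
    (hu1 : ∃ a s : R, ¬ ϖ ∣ s ∧ ϖ ∣ a - s ∧ u * algebraMap R K s = algebraMap R K a)
    (hdiv : ∀ f : R, Prime f → ∃ t : K, ∃ a s : R, ¬ f ∣ a ∧ ¬ f ∣ s ∧
        u * t ^ p * algebraMap R K s = algebraMap R K a)
    (η : R) :
    ∃ b c : L, IsIntegral R b ∧ IsIntegral R c ∧ ∃ s : R, ¬ ϖ ∣ s ∧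
      algebraMap R L s *
          (b - (p : L)⁻¹ * ∑ a ∈ Finset.range p, algebraMap R L (η ^ a) * z ^ a) =
        algebraMap R L ϖ * c := by
  classical
  have hp0 : p ≠ 0 := by
    rintro rfl
    simp at hpu
  obtain ⟨ε, ρ, S, T, hS, hT, hρ, heq⟩ := local_normal_form ϖ hϖ p hp0 u hu1 hdiv
  have hS0 : S ≠ 0 := fun h => hS (h ▸ dvd_zero ϖ)
  have hT0 : T ≠ 0 := fun h => hT (h ▸ dvd_zero ϖ)
  have hinj : Function.Injective (algebraMap R L) := by
    rw [IsScalarTower.algebraMap_eq R K L]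
    exact (algebraMap K L).injective.comp (IsFractionRing.injective R K)
  have hSL : algebraMap R L S ≠ 0 := fun h0 => hS0 (hinj (by rw [h0, map_zero]))
  have hTL : algebraMap R L T ≠ 0 := fun h0 => hT0 (hinj (by rw [h0, map_zero]))
  obtain ⟨θ, hθp, hzθ⟩ : ∃ θ : L, θ ^ p = algebraMap R L ε ∧
      z = θ * algebraMap R L S / algebraMap R L T := by
    refine ⟨z * algebraMap R L T / algebraMap R L S, theta_pow p u z hz ε S T hS0 heq, ?_⟩
    field_simp
  have hθint : IsIntegral R θ := kummer_isIntegral p hp0 (ε : R) θ hθp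
  -- the quotients `q a`
  have hq : ∀ a : ℕ, ∃ q : R, ((ρ : R) * T) ^ a - S ^ a = ϖ * q := by
    intro a
    have h1 : (ρ : R) * T - S ∣ ((ρ : R) * T) ^ a - S ^ a := sub_dvd_pow_sub_pow _ _ a
    have h2 : ϖ ∣ (ρ : R) * T - S := by
      have := (dvd_neg (a := ϖ)).mpr hρ
      simpa using this
    exact h2.trans h1
  choose q hq using hq
  obtain ⟨p', hp'⟩ := hpu
  have hpinv : (p : L)⁻¹ = algebraMap R L ((p'⁻¹ : Rˣ) : R) := by
    have h1 : (p : L) = algebraMap R L (p' : R) := by rw [hp', map_natCast]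
    rw [h1, ← map_units_inv]
  refine ⟨algebraMap R L ((p'⁻¹ : Rˣ) : R) *
      ∑ a ∈ Finset.range p, algebraMap R L (η ^ a * (ρ : R) ^ a) * θ ^ a,
    algebraMap R L ((p'⁻¹ : Rˣ) : R) *
      ∑ a ∈ Finset.range p, algebraMap R L (η ^ a * T ^ (p - 1 - a) * q a) * θ ^ a,
    ?_, ?_, T ^ (p - 1), fun h => hT (hϖ.dvd_of_dvd_pow h), ?_⟩
  · exact isIntegral_algebraMap.mul
      (IsIntegral.sum _ fun a _ => isIntegral_algebraMap.mul (hθint.pow a))
  · exact isIntegral_algebraMap.mul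
      (IsIntegral.sum _ fun a _ => isIntegral_algebraMap.mul (hθint.pow a))
  · rw [hpinv, ← mul_sub, ← Finset.sum_sub_distrib, mul_left_comm, mul_left_comm (algebraMap R L ϖ)]
    congr 1
    rw [Finset.mul_sum, Finset.mul_sum]
    refine Finset.sum_congr rfl fun a ha => ?_
    have ha' : a ≤ p - 1 := by
      have := Finset.mem_range.mp ha
      omega
    have hTpow : algebraMap R L T ^ (p - 1) =
        algebraMap R L T ^ (p - 1 - a) * algebraMap R L T ^ a := by
      rw [← pow_add]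
      congr 1
      omega
    have hza : z ^ a = θ ^ a * algebraMap R L S ^ a / algebraMap R L T ^ a := by
      rw [hzθ, div_pow, mul_pow]
    have hqa : algebraMap R L ϖ * algebraMap R L (q a) =
        (algebraMap R L ρ * algebraMap R L T) ^ a - algebraMap R L S ^ a := by
      rw [← map_mul, ← hq a]
      simp only [map_sub, map_pow, map_mul]
    simp only [map_mul, map_pow]
    rw [hza, hTpow]
    have hTa : algebraMap R L T ^ a ≠ 0 := pow_ne_zero _ hTL
    have h1 : algebraMap R L T ^ a * (θ ^ a * algebraMap R L S ^ a / algebraMap R L T ^ a) =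
        θ ^ a * algebraMap R L S ^ a := by
      field_simp
    have h2 : algebraMap R L T ^ (p - 1 - a) * algebraMap R L T ^ a *
        (algebraMap R L η ^ a * algebraMap R L ↑ρ ^ a * θ ^ a -
          algebraMap R L η ^ a * (θ ^ a * algebraMap R L S ^ a / algebraMap R L T ^ a)) =
        algebraMap R L T ^ (p - 1 - a) *
          (algebraMap R L η ^ a * algebraMap R L ↑ρ ^ a * θ ^ a * algebraMap R L T ^ a -
          algebraMap R L η ^ a *
            (algebraMap R L T ^ a * (θ ^ a * algebraMap R L S ^ a / algebraMap R L T ^ a))) := by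
      ring
    rw [h2, h1]
    have h3 : algebraMap R L ϖ * algebraMap R L (q a) =
        (algebraMap R L ↑ρ) ^ a * algebraMap R L T ^ a - algebraMap R L S ^ a := by
      rw [hqa, mul_pow]
    linear_combination
      (-(algebraMap R L η ^ a * algebraMap R L T ^ (p - 1 - a) * θ ^ a)) * h3

/-- **Local unmixedness.**  An element of `K(z)` integral over `R` and divisible by `ϖ` in `O'`
is `ϖ` times an element integral over `R`. -/
theorem local_unmixed (ϖ : R) (hϖ : Prime ϖ) [IsPrincipalIdealRing (R ⧸ Ideal.span {ϖ})]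
    (p : ℕ) (hpu : IsUnit (p : R)) (u : K) (z : L) (hz : z ^ p = algebraMap K L u)
    (hu1 : ∃ a s : R, ¬ ϖ ∣ s ∧ ϖ ∣ a - s ∧ u * algebraMap R K s = algebraMap R K a)
    (hdiv : ∀ f : R, Prime f → ∃ t : K, ∃ a s : R, ¬ f ∣ a ∧ ¬ f ∣ s ∧
        u * t ^ p * algebraMap R K s = algebraMap R K a)
    (c : L) (hcz : c ∈ IntermediateField.adjoin K {z}) (hc : IsIntegral R c)
    (hcϖ : ∃ s : R, ¬ ϖ ∣ s ∧ ∃ c'' : L, IsIntegral R c'' ∧
        algebraMap R L s * c = algebraMap R L ϖ * c'') :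
    ∃ c' : L, IsIntegral R c' ∧ c = algebraMap R L ϖ * c' := by
  classical
  have hp0 : p ≠ 0 := by
    rintro rfl
    simp at hpu
  have hprime : (Ideal.span {ϖ}).IsPrime := (Ideal.span_singleton_prime hϖ.ne_zero).mpr hϖ
  have : IsDomain (R ⧸ Ideal.span {ϖ}) := Ideal.Quotient.isDomain _
  have : UniqueFactorizationMonoid R := H334.ufm_of_quotient_pir ϖ hϖ.ne_zero
  obtain ⟨ε, ρ, S, T, hS, hT, hρ, heq⟩ := local_normal_form ϖ hϖ p hp0 u hu1 hdiv
  have hS0 : S ≠ 0 := fun h => hS (h ▸ dvd_zero ϖ)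
  have hT0 : T ≠ 0 := fun h => hT (h ▸ dvd_zero ϖ)
  have hinj : Function.Injective (algebraMap R L) := by
    rw [IsScalarTower.algebraMap_eq R K L]
    exact (algebraMap K L).injective.comp (IsFractionRing.injective R K)
  have hSL : algebraMap R L S ≠ 0 := fun h0 => hS0 (hinj (by rw [h0, map_zero]))
  have hTL : algebraMap R L T ≠ 0 := fun h0 => hT0 (hinj (by rw [h0, map_zero]))
  have hϖL : algebraMap R L ϖ ≠ 0 := fun h0 => hϖ.ne_zero (hinj (by rw [h0, map_zero]))
  obtain ⟨θ, hθp, hzθ⟩ : ∃ θ : L, θ ^ p = algebraMap R L ε ∧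
      z = θ * algebraMap R L S / algebraMap R L T := by
    refine ⟨z * algebraMap R L T / algebraMap R L S, theta_pow p u z hz ε S T hS0 heq, ?_⟩
    field_simp
  have hθint : IsIntegral R θ := kummer_isIntegral p hp0 (ε : R) θ hθp
  have hθK : IsIntegral K θ := hθint.tower_top
  -- the field `E = K(θ) = K(z)`
  set E : IntermediateField K L := IntermediateField.adjoin K {θ} with hE
  have hRE : ∀ r : R, algebraMap R L r ∈ E := fun r => by
    rw [IsScalarTower.algebraMap_apply R K L]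
    exact E.algebraMap_mem _
  have hθE : θ ∈ E := IntermediateField.mem_adjoin_simple_self K θ
  have hzE : z ∈ E := by
    rw [hzθ]
    exact E.div_mem (E.mul_mem hθE (hRE S)) (hRE T)
  have hle : IntermediateField.adjoin K {z} ≤ E := IntermediateField.adjoin_simple_le_iff.mpr hzE
  have hcE : c ∈ E := hle hcz
  obtain ⟨s, hs, c'', hc'', hsc⟩ := hcϖ
  have hc''eq : c'' = algebraMap R L s * c / algebraMap R L ϖ := by
    rw [hsc]
    field_simp
  have hc''E : c'' ∈ E := by
    rw [hc''eq]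
    exact E.div_mem (E.mul_mem (hRE s) hcE) (hRE ϖ)
  -- power basis
  let pb : PowerBasis K E := IntermediateField.adjoin.powerBasis hθK
  have hgen : (pb.gen : L) = θ := by
    simp [pb, IntermediateField.adjoin.powerBasis_gen]
  have hy : pb.gen ^ p = algebraMap R E ε := by
    apply Subtype.ext
    change ((pb.gen ^ p : E) : L) = algebraMap R L ε
    rw [IntermediateField.coe_pow, hgen, hθp]
  have hRtower : IsScalarTower R E L := IsScalarTower.of_algebraMap_eq fun r => rfl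
  have hintE : ∀ x : E, IsIntegral R (x : L) → IsIntegral R x := fun x hx =>
    (isIntegral_algebraMap_iff (algebraMap E L).injective).mp hx
  have hr := fun i => kummer_repr_mem p hpu ε pb hy (hintE ⟨c, hcE⟩ hc) i
  have hr'' := fun i => kummer_repr_mem p hpu ε pb hy (hintE ⟨c'', hc''E⟩ hc'') i
  choose r hr using hr
  choose r'' hr'' using hr''
  -- the relation between coordinates
  have hrel : algebraMap R K s • (⟨c, hcE⟩ : E) = algebraMap R K ϖ • (⟨c'', hc''E⟩ : E) := by
    apply Subtype.ext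
    change algebraMap R K s • c = algebraMap R K ϖ • c''
    rw [algebraMap_smul, algebraMap_smul, Algebra.smul_def, Algebra.smul_def, hsc]
  have hcoord : ∀ i, s * r i = ϖ * r'' i := by
    intro i
    apply IsFractionRing.injective R K
    have := congrArg (fun x => pb.basis.repr x i) hrel
    simp only [map_smul, Finsupp.smul_apply, smul_eq_mul] at this
    rw [map_mul, map_mul, hr, hr'', this]
  have hdvd : ∀ i, ϖ ∣ r i := by
    intro i
    have h1 : ϖ ∣ s * r i := ⟨r'' i, hcoord i⟩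
    exact (hϖ.dvd_or_dvd h1).resolve_left hs
  choose r' hr' using hdvd
  refine ⟨((∑ i, algebraMap R K (r' i) • pb.basis i : E) : L), ?_, ?_⟩
  · have h1 : IsIntegral R (∑ i, algebraMap R K (r' i) • pb.basis i : E) := by
      refine IsIntegral.sum _ fun i _ => ?_
      rw [algebraMap_smul, Algebra.smul_def]
      refine isIntegral_algebraMap.mul ?_
      rw [pb.basis_eq_pow]
      exact (hintE pb.gen (by rw [hgen]; exact hθint)).pow _
    exact h1.map (IsScalarTower.toAlgHom R E L)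
  · have h1 : (⟨c, hcE⟩ : E) = algebraMap R K ϖ • ∑ i, algebraMap R K (r' i) • pb.basis i := by
      conv_lhs => rw [← pb.basis.sum_repr ⟨c, hcE⟩]
      rw [Finset.smul_sum]
      refine Finset.sum_congr rfl fun i _ => ?_
      rw [← hr, hr' i, map_mul, mul_smul]
    have h2 := congrArg (fun x : E => (x : L)) h1
    simp only at h2
    rw [h2, algebraMap_smul, Algebra.smul_def]
    rfl

end Local

end Fermat.Agent.S18.H514
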