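import Mathlib
import Fermat.Agent.S18.H514.KummerLocal

/-!
# S18, route K, piece P5 (part 1): transfer of the hypotheses to the localisation at a closed point

`B` noetherian domain, `𝔪` a prime (maximal) ideal, `R = B_𝔪`, `ϖ ∈ 𝔪` a prime element.
-/

set_option autoImplicit false
set_option linter.unusedSectionVars false

namespace Fermat.Agent.S18.H514

section Loc

variable {B : Type*} [CommRing B] [IsDomain B]
variable (𝔪 : Ideal B) [𝔪.IsPrime]
variable (R : Type*) [CommRing R] [Algebra B R] [IsLocalization.AtPrime R 𝔪]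

include 𝔪 in
theorem loc_injective : Function.Injective (algebraMap B R) :=
  IsLocalization.injective R 𝔪.primeCompl_le_nonZeroDivisors

include 𝔪 in
theorem loc_isDomain : IsDomain R :=
  IsLocalization.isDomain_of_atPrime R 𝔪

theorem loc_isUnit_of_notMem {d : B} (hd : d ∉ 𝔪) : IsUnit (algebraMap B R d) :=
  IsLocalization.map_units R (⟨d, hd⟩ : 𝔪.primeCompl)

/-- `ϖ_R ∣ x_R ↔ ϖ ∣ x` for a prime element `ϖ ∈ 𝔪`. -/
theorem loc_dvd_iff {ϖ : B} (hϖ : Prime ϖ) (hm : ϖ ∈ 𝔪) (x : B) :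
    algebraMap B R ϖ ∣ algebraMap B R x ↔ ϖ ∣ x := by
  constructor
  · rintro ⟨r, hr⟩
    obtain ⟨y, d, rfl⟩ := IsLocalization.exists_mk'_eq 𝔪.primeCompl r
    have h1 : algebraMap B R (x * d) = algebraMap B R (ϖ * y) := by
      rw [map_mul, map_mul, hr, mul_assoc, IsLocalization.mk'_spec]
    have h2 : x * d = ϖ * y := loc_injective 𝔪 R h1
    have h3 : ϖ ∣ x * d := ⟨y, h2⟩
    rcases hϖ.dvd_or_dvd h3 with h | h
    · exact h
    · exact absurd (Ideal.mem_of_dvd 𝔪 h hm) d.2
  · rintro ⟨y, rfl⟩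
    exact ⟨algebraMap B R y, map_mul _ _ _⟩

theorem loc_prime {ϖ : B} (hϖ : Prime ϖ) (hm : ϖ ∈ 𝔪) : Prime (algebraMap B R ϖ) := by
  have := loc_isDomain 𝔪 R
  have hne : algebraMap B R ϖ ≠ 0 := fun h =>
    hϖ.ne_zero (loc_injective 𝔪 R (by rw [h, map_zero]))
  rw [← Ideal.span_singleton_prime hne]
  have hprime : (Ideal.span {ϖ}).IsPrime := (Ideal.span_singleton_prime hϖ.ne_zero).mpr hϖ
  have hdisj : Disjoint (𝔪.primeCompl : Set B) (Ideal.span {ϖ} : Ideal B) := by
    rw [Set.disjoint_left]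
    intro x hx hx'
    exact hx ((Ideal.span_singleton_le_iff_mem 𝔪).mpr hm hx')
  have := IsLocalization.isPrime_of_isPrime_disjoint 𝔪.primeCompl R _ hprime hdisj
  rwa [Ideal.map_span, Set.image_singleton] at this

/-- The maximal ideal of `B_𝔪` is generated by `ϖ` and `t` if `𝔪` is so locally. -/
theorem loc_mem_span_pair {ϖ t : B}
    (hreg : ∀ a ∈ 𝔪, ∃ s : B, s ∉ 𝔪 ∧ s * a ∈ Ideal.span {ϖ, t}) (x : R)
    (hx : x ∈ Ideal.map (algebraMap B R) 𝔪) :
    x ∈ Ideal.span {algebraMap B R ϖ, algebraMap B R t} := by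
  obtain ⟨⟨a, d⟩, hxa⟩ := (IsLocalization.mem_map_algebraMap_iff 𝔪.primeCompl R).mp hx
  obtain ⟨s, hs, hsa⟩ := hreg a a.2
  obtain ⟨α, β, hαβ⟩ := Ideal.mem_span_pair.mp hsa
  have hu : IsUnit (algebraMap B R (d * s)) := by
    rw [map_mul]
    exact (IsLocalization.map_units R d).mul (loc_isUnit_of_notMem 𝔪 R hs)
  have h1 : x * algebraMap B R (d * s) =
      algebraMap B R α * algebraMap B R ϖ + algebraMap B R β * algebraMap B R t := by
    rw [← map_mul, ← map_mul, ← map_add, hαβ, map_mul (algebraMap B R) (↑d) s, ← mul_assoc, hxa,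
      ← map_mul, mul_comm]
  obtain ⟨v, hv⟩ := hu
  have h2 : x = (algebraMap B R α * algebraMap B R ϖ + algebraMap B R β * algebraMap B R t) *
      ((v⁻¹ : Rˣ) : R) := by
    rw [← h1, ← hv, mul_assoc, Units.mul_inv, mul_one]
  rw [h2]
  refine Ideal.mul_mem_right _ _ (Ideal.add_mem _ ?_ ?_)
  · exact Ideal.mul_mem_left _ _ (Ideal.subset_span (by simp))
  · exact Ideal.mul_mem_left _ _ (Ideal.subset_span (by simp))

/-- If `𝔪 B_𝔪 = (ϖ, t)` then `B_𝔪 / ϖ` is a principal ideal ring. -/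
theorem loc_isPrincipalIdealRing_quotient [IsNoetherianRing B] {ϖ : B} (hϖ : Prime ϖ)
    (hm : ϖ ∈ 𝔪)
    (hreg : ∃ t ∈ 𝔪, ∀ a ∈ 𝔪, ∃ s : B, s ∉ 𝔪 ∧ s * a ∈ Ideal.span {ϖ, t}) :
    IsPrincipalIdealRing (R ⧸ Ideal.span {algebraMap B R ϖ}) := by
  classical
  have hdom := loc_isDomain 𝔪 R
  have hloc : IsLocalRing R := IsLocalization.AtPrime.isLocalRing R 𝔪
  have hnoeth : IsNoetherianRing R := IsLocalization.isNoetherianRing 𝔪.primeCompl R inferInstance
  have hϖR := loc_prime 𝔪 R hϖ hm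
  have hprime : (Ideal.span {algebraMap B R ϖ}).IsPrime :=
    (Ideal.span_singleton_prime hϖR.ne_zero).mpr hϖR
  have hdomq : IsDomain (R ⧸ Ideal.span {algebraMap B R ϖ}) := Ideal.Quotient.isDomain _
  set q := Ideal.Quotient.mk (Ideal.span {algebraMap B R ϖ}) with hq
  have hqsurj : Function.Surjective q := Ideal.Quotient.mk_surjective
  have hlocq : IsLocalRing (R ⧸ Ideal.span {algebraMap B R ϖ}) :=
    IsLocalRing.of_surjective' q hqsurj
  obtain ⟨t, ht, hreg⟩ := hreg
  have hmax : IsLocalRing.maximalIdeal R = Ideal.map (algebraMap B R) 𝔪 :=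
    (IsLocalization.AtPrime.map_eq_maximalIdeal 𝔪 R).symm
  have hϖmax : algebraMap B R ϖ ∈ IsLocalRing.maximalIdeal R := by
    rw [hmax]; exact Ideal.mem_map_of_mem _ hm
  have htmax : algebraMap B R t ∈ IsLocalRing.maximalIdeal R := by
    rw [hmax]; exact Ideal.mem_map_of_mem _ ht
  -- `q` reflects units
  have hunit : ∀ x : R, IsUnit (q x) → IsUnit x := by
    intro x hx
    obtain ⟨y', hy'⟩ := hx.exists_right_inv
    obtain ⟨y, rfl⟩ := hqsurj y'
    have h1 : q (x * y - 1) = 0 := by rw [map_sub, map_mul, hy', map_one, sub_self]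
    rw [hq, Ideal.Quotient.eq_zero_iff_mem, Ideal.mem_span_singleton] at h1
    exact isUnit_of_dvd_mul_sub_one _ hϖR.not_isUnit x y h1
  have hprinc : (IsLocalRing.maximalIdeal (R ⧸ Ideal.span {algebraMap B R ϖ})).IsPrincipal := by
    refine ⟨⟨q (algebraMap B R t), ?_⟩⟩
    apply le_antisymm
    · intro x' hx'
      obtain ⟨x, rfl⟩ := hqsurj x'
      have hx : x ∈ IsLocalRing.maximalIdeal R := by
        rw [IsLocalRing.mem_maximalIdeal, mem_nonunits_iff]
        intro hxu
        exact ((IsLocalRing.mem_maximalIdeal _).mp hx') (hxu.map q)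
      rw [hmax] at hx
      have h1 := loc_mem_span_pair 𝔪 R hreg x hx
      obtain ⟨α, β, hαβ⟩ := Ideal.mem_span_pair.mp h1
      have h2 : q x = q β * q (algebraMap B R t) := by
        rw [← hαβ, map_add, map_mul, map_mul]
        have : q (algebraMap B R ϖ) = 0 := by
          rw [hq, Ideal.Quotient.eq_zero_iff_mem]
          exact Ideal.mem_span_singleton_self _
        rw [this, mul_zero, zero_add]
      rw [h2]
      exact Submodule.smul_mem _ _ (Submodule.mem_span_singleton_self _)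
    · rw [Submodule.span_le, Set.singleton_subset_iff]
      change q (algebraMap B R t) ∈ IsLocalRing.maximalIdeal _
      rw [IsLocalRing.mem_maximalIdeal, mem_nonunits_iff]
      intro hu
      exact ((IsLocalRing.mem_maximalIdeal _).mp htmax) (hunit _ hu)
  exact ((tfae_of_isNoetherianRing_of_isLocalRing_of_isDomain
    (R := R ⧸ Ideal.span {algebraMap B R ϖ})).out 4 0).mp hprinc

include 𝔪 in
/-- Transfer of the divisibility of the divisor to prime elements of the localisation. -/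
theorem loc_hdiv [IsNoetherianRing B] {F : Type*} [Field F] [Algebra B F] [Algebra R F]
    [IsScalarTower B R F] (p : ℕ) (u : F)
    (hD : ∀ 𝔭 : Ideal B, 𝔭.IsPrime → 𝔭.height = 1 →
      ∃ t : F, ∃ a s : B, a ∉ 𝔭 ∧ s ∉ 𝔭 ∧ u * t ^ p * algebraMap B F s = algebraMap B F a)
    (f : R) (hf : Prime f) :
    ∃ t : F, ∃ a s : R, ¬ f ∣ a ∧ ¬ f ∣ s ∧
      u * t ^ p * algebraMap R F s = algebraMap R F a := by
  have hdom := loc_isDomain 𝔪 R
  have hnoeth : IsNoetherianRing R := IsLocalization.isNoetherianRing 𝔪.primeCompl R inferInstance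
  have hJ : (Ideal.span {f}).IsPrime := (Ideal.span_singleton_prime hf.ne_zero).mpr hf
  have hht : (Ideal.span {f}).height = 1 :=
    Ideal.height_span_singleton_eq_one_of_mem_nonZeroDivisors
      (mem_nonZeroDivisors_of_ne_zero hf.ne_zero) hf.not_isUnit
  have hht' : ((Ideal.span {f}).under B).height = 1 := by
    rw [IsLocalization.height_under 𝔪.primeCompl, hht]
  have hprime' : ((Ideal.span {f}).under B).IsPrime := Ideal.comap_isPrime _ _
  obtain ⟨t, a, s, ha, hs, h⟩ := hD _ hprime' hht'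
  refine ⟨t, algebraMap B R a, algebraMap B R s, ?_, ?_, ?_⟩
  · intro hdvd
    exact ha (by
      change algebraMap B R a ∈ Ideal.span {f}
      exact Ideal.mem_span_singleton.mpr hdvd)
  · intro hdvd
    exact hs (by
      change algebraMap B R s ∈ Ideal.span {f}
      exact Ideal.mem_span_singleton.mpr hdvd)
  · rw [← IsScalarTower.algebraMap_apply B R F, ← IsScalarTower.algebraMap_apply B R F, h]

end Loc

end Fermat.Agent.S18.H514
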