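import Mathlib
import Fermat.Agent.S18.H754.KummerSpec
import Fermat.Agent.S18.H514.KummerLoc

/-!
# S18, route K, piece P5: the Kummer lifting and unmixedness statements of `H754/KummerSpec.lean`

* `kummerLiftStatement   : H754.KummerLiftStatement`
* `kummerUnmixedStatement : H754.KummerUnmixedStatement`

Proof: local statements at the closed points of the special fibre (`KummerLocal.lean`,
using `H334/LocalUFD.lean`) + an ideal-of-denominators argument.
-/

set_option autoImplicit false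
set_option linter.unusedSectionVars false

namespace Fermat.Agent.S18.H514

open H754

section Global

variable {B : Type*} [CommRing B] [IsDomain B] [IsNoetherianRing B] [IsIntegrallyClosed B]
variable {F : Type*} [Field F] [Algebra B F] [IsFractionRing B F]
variable {F' : Type*} [Field F'] [Algebra F F'] [Algebra B F'] [IsScalarTower B F F']

/-- The localisation of `B` at `𝔪` as a subalgebra of `F`. -/
noncomputable abbrev locSub (F : Type*) [Field F] [Algebra B F] [IsFractionRing B F]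
    (𝔪 : Ideal B) [𝔪.IsPrime] : Subalgebra B F :=
  Localization.subalgebra.ofField F 𝔪.primeCompl 𝔪.primeCompl_le_nonZeroDivisors

/-- `InPiO` is stable under addition. -/
theorem inPiO_add {ϖ : B} (hϖ : Prime ϖ) {y₁ y₂ : F'} (h₁ : InPiO ϖ y₁) (h₂ : InPiO ϖ y₂) :
    InPiO ϖ (y₁ + y₂) := by
  obtain ⟨s₁, hs₁, c₁, hc₁, e₁⟩ := h₁
  obtain ⟨s₂, hs₂, c₂, hc₂, e₂⟩ := h₂
  refine ⟨s₁ * s₂, ?_, algebraMap B F' s₂ * c₁ + algebraMap B F' s₁ * c₂, ?_, ?_⟩
  · rw [Ideal.mem_span_singleton] at hs₁ hs₂ ⊢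
    intro h
    rcases hϖ.dvd_or_dvd h with h | h
    · exact hs₁ h
    · exact hs₂ h
  · exact (isIntegral_algebraMap.mul hc₁).add (isIntegral_algebraMap.mul hc₂)
  · rw [map_mul]
    linear_combination algebraMap B F' s₂ * e₁ + algebraMap B F' s₁ * e₂

/-- `InPiO` is stable under multiplication by elements of `B`. -/
theorem inPiO_smul {ϖ : B} (x : B) {y : F'} (h : InPiO ϖ y) :
    InPiO ϖ (algebraMap B F' x * y) := by
  obtain ⟨s, hs, c, hc, e⟩ := h
  refine ⟨s, hs, algebraMap B F' x * c, isIntegral_algebraMap.mul hc, ?_⟩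
  linear_combination algebraMap B F' x * e

/-- Transfer of `OneModPi` to the localisation. -/
theorem loc_oneModPi (𝔪 : Ideal B) [𝔪.IsPrime] {ϖ : B} (hϖ : Prime ϖ) (hm : ϖ ∈ 𝔪) {u : F}
    (h1 : OneModPi ϖ u) :
    ∃ a s : locSub F 𝔪, ¬ algebraMap B (locSub F 𝔪) ϖ ∣ s ∧
      algebraMap B (locSub F 𝔪) ϖ ∣ a - s ∧
      u * algebraMap (locSub F 𝔪) F s = algebraMap (locSub F 𝔪) F a := by
  obtain ⟨a, s, hs, has, hu⟩ := h1
  refine ⟨algebraMap B _ a, algebraMap B _ s, ?_, ?_, ?_⟩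
  · rw [loc_dvd_iff 𝔪 _ hϖ hm]
    rwa [Ideal.mem_span_singleton] at hs
  · rw [← map_sub, loc_dvd_iff 𝔪 _ hϖ hm]
    rwa [Ideal.mem_span_singleton] at has
  · rw [← IsScalarTower.algebraMap_apply B (locSub F 𝔪) F,
      ← IsScalarTower.algebraMap_apply B (locSub F 𝔪) F, hu]

/-- **Lift at a closed point of the special fibre.** -/
theorem exists_lift_at (ϖ : B) (hϖ : Prime ϖ) (𝔪 : Ideal B) [𝔪.IsPrime] (hm : ϖ ∈ 𝔪)
    (hreg : ∃ t ∈ 𝔪, ∀ a ∈ 𝔪, ∃ s : B, s ∉ 𝔪 ∧ s * a ∈ Ideal.span {ϖ, t})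
    (p : ℕ) (hpu : IsUnit (p : B)) (u : F) (z : F') (hz : z ^ p = algebraMap F F' u)
    (h1 : OneModPi ϖ u) (hD : DivisibleDivisor B p u) (η : B) :
    ∃ d : B, d ∉ 𝔪 ∧ ∃ b : F', IsIntegral B b ∧
      InPiO ϖ (b - algebraMap B F' d * kummerIdem p η z) := by
  classical
  have hloc : IsLocalRing (locSub F 𝔪) := IsLocalization.AtPrime.isLocalRing _ 𝔪
  have hnoeth : IsNoetherianRing (locSub F 𝔪) :=
    IsLocalization.isNoetherianRing 𝔪.primeCompl _ inferInstance
  have hPIR := loc_isPrincipalIdealRing_quotient 𝔪 (locSub F 𝔪) hϖ hm hreg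
  have hpuR : IsUnit ((p : ℕ) : locSub F 𝔪) := by
    have := hpu.map (algebraMap B (locSub F 𝔪))
    rwa [map_natCast] at this
  obtain ⟨b₀, c₀, hb₀, hc₀, s₀, hs₀, heq⟩ :=
    local_lift (R := locSub F 𝔪) (K := F) (L := F') (algebraMap B _ ϖ)
      (loc_prime 𝔪 _ hϖ hm) p hpuR u z hz (loc_oneModPi 𝔪 hϖ hm h1)
      (fun f hf => loc_hdiv 𝔪 (locSub F 𝔪) p u hD f hf) (algebraMap B _ η)
  -- the idempotent
  have he : (p : F')⁻¹ * ∑ a ∈ Finset.range p,
      algebraMap (locSub F 𝔪) F' ((algebraMap B (locSub F 𝔪) η) ^ a) * z ^ a =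
      kummerIdem p η z := by
    unfold kummerIdem
    congr 1
    refine Finset.sum_congr rfl fun a _ => ?_
    rw [← map_pow, ← IsScalarTower.algebraMap_apply B (locSub F 𝔪) F']
  rw [he] at heq
  -- clear denominators
  obtain ⟨d₁, hd₁⟩ := IsIntegral.exists_multiple_integral_of_isLocalization 𝔪.primeCompl b₀ hb₀
  obtain ⟨d₂, hd₂⟩ := IsIntegral.exists_multiple_integral_of_isLocalization 𝔪.primeCompl c₀ hc₀
  obtain ⟨s₁, d₃, rfl⟩ := IsLocalization.exists_mk'_eq 𝔪.primeCompl s₀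
  have hd₁' : IsIntegral B (algebraMap B F' d₁ * b₀) := by
    have : d₁ • b₀ = algebraMap B F' d₁ * b₀ := by
      rw [Submonoid.smul_def, Algebra.smul_def]
    rwa [this] at hd₁
  have hd₂' : IsIntegral B (algebraMap B F' d₂ * c₀) := by
    have : d₂ • c₀ = algebraMap B F' d₂ * c₀ := by
      rw [Submonoid.smul_def, Algebra.smul_def]
    rwa [this] at hd₂
  have hs₁ : algebraMap B F' s₁ =
      algebraMap (locSub F 𝔪) F' (IsLocalization.mk' (locSub F 𝔪) s₁ d₃) * algebraMap B F' d₃ := by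
    rw [IsScalarTower.algebraMap_apply B (locSub F 𝔪) F' (d₃ : B), ← map_mul,
      IsLocalization.mk'_spec, ← IsScalarTower.algebraMap_apply B (locSub F 𝔪) F']
  refine ⟨d₁ * d₂ * d₃, (d₁ * d₂ * d₃).2, algebraMap B F' (d₁ * d₂ * d₃ : B) * b₀, ?_, s₁, ?_,
    algebraMap B F' (d₁ * d₃ * d₃ : B) * (algebraMap B F' d₂ * c₀), ?_, ?_⟩
  · have : algebraMap B F' (d₁ * d₂ * d₃ : B) * b₀ =
        algebraMap B F' (d₂ * d₃ : B) * (algebraMap B F' d₁ * b₀) := by
      simp only [map_mul]; ring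
    rw [this]
    exact isIntegral_algebraMap.mul hd₁'
  · rw [Ideal.mem_span_singleton]
    intro hdvd
    apply hs₀
    have h2 := (loc_dvd_iff 𝔪 (locSub F 𝔪) hϖ hm s₁).mpr hdvd
    rw [← IsLocalization.mk'_spec (locSub F 𝔪) s₁ d₃] at h2
    exact (IsUnit.dvd_mul_right (IsLocalization.map_units _ d₃)).mp h2
  · exact isIntegral_algebraMap.mul hd₂'
  · rw [hs₁, ← IsScalarTower.algebraMap_apply B (locSub F 𝔪) F'] at *
    simp only [map_mul]
    linear_combination
      (algebraMap B F' d₁ * algebraMap B F' d₂ * algebraMap B F' d₃ * algebraMap B F' d₃) * heq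

/-- An ideal containing `ϖ` and, for every maximal ideal `𝔪 ∋ ϖ`, an element outside `𝔪`, is
the unit ideal. -/
theorem ideal_eq_top_of_local (ϖ : B) (I : Ideal B) (hϖI : ϖ ∈ I)
    (h : ∀ 𝔪 : Ideal B, 𝔪.IsMaximal → ϖ ∈ 𝔪 → ∃ d ∈ I, d ∉ 𝔪) : I = ⊤ := by
  by_contra hne
  obtain ⟨𝔪, hmax, hle⟩ := Ideal.exists_le_maximal I hne
  obtain ⟨d, hdI, hd⟩ := h 𝔪 hmax (hle hϖI)
  exact hd (hle hdI)

/-- The Kummer idempotent becomes integral after multiplication by an element prime to `ϖ`. -/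
theorem exists_mul_kummerIdem_integral (ϖ : B) (p : ℕ) (hpu : IsUnit (p : B)) (u : F) (z : F')
    (hz : z ^ p = algebraMap F F' u) (h1 : OneModPi ϖ u) (hϖ : Prime ϖ) (η : B) :
    ∃ s : B, s ∉ Ideal.span {ϖ} ∧ IsIntegral B (algebraMap B F' s * kummerIdem p η z) := by
  classical
  have hp0 : p ≠ 0 := by
    rintro rfl
    simp at hpu
  obtain ⟨a, s₀, hs₀, -, hu⟩ := h1
  have hint : IsIntegral B (algebraMap B F' s₀ * z) := by
    refine ⟨Polynomial.X ^ p - Polynomial.C (s₀ ^ (p - 1) * a),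
      Polynomial.monic_X_pow_sub_C _ hp0, ?_⟩
    have h2 : algebraMap B F' a = algebraMap F F' u * algebraMap B F' s₀ := by
      rw [IsScalarTower.algebraMap_apply B F F' a, ← hu, map_mul,
        ← IsScalarTower.algebraMap_apply B F F']
    have h3 : algebraMap B F' s₀ ^ p = algebraMap B F' s₀ ^ (p - 1) * algebraMap B F' s₀ := by
      rw [← pow_succ]
      congr 1
      omega
    rw [Polynomial.eval₂_sub, Polynomial.eval₂_pow, Polynomial.eval₂_X, Polynomial.eval₂_C,
      map_mul, map_pow, mul_pow, hz, h2, h3]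
    ring
  obtain ⟨p', hp'⟩ := hpu
  have hpinv : (p : F')⁻¹ = algebraMap B F' ((p'⁻¹ : Bˣ) : B) := by
    have h1 : (p : F') = algebraMap B F' (p' : B) := by rw [hp', map_natCast]
    rw [h1, ← map_units_inv]
  refine ⟨s₀ ^ p, ?_, ?_⟩
  · rw [Ideal.mem_span_singleton] at hs₀ ⊢
    exact fun h => hs₀ (hϖ.dvd_of_dvd_pow h)
  · have key : algebraMap B F' (s₀ ^ p) * kummerIdem p η z =
        algebraMap B F' ((p'⁻¹ : Bˣ) : B) * ∑ a ∈ Finset.range p,
          algebraMap B F' (η ^ a * s₀ ^ (p - a)) * (algebraMap B F' s₀ * z) ^ a := by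
      unfold kummerIdem
      rw [hpinv, mul_left_comm, Finset.mul_sum]
      congr 1
      refine Finset.sum_congr rfl fun a ha => ?_
      have ha' : a ≤ p := (Finset.mem_range.mp ha).le
      have : s₀ ^ p = s₀ ^ (p - a) * s₀ ^ a := by
        rw [← pow_add]
        congr 1
        omega
      rw [this]
      simp only [map_mul, map_pow]
      ring
    rw [key]
    exact isIntegral_algebraMap.mul
      (IsIntegral.sum _ fun a _ => isIntegral_algebraMap.mul (hint.pow a))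

/-- **Kummer lift** (universe polymorphic form of `H754.KummerLiftStatement`). -/
theorem kummerLift (ϖ : B) (hϖ : Prime ϖ) (hreg : RegularAlong ϖ)
    (p : ℕ) (hpu : IsUnit (p : B)) (u : F) (z : F') (hz : z ^ p = algebraMap F F' u)
    (h1 : OneModPi ϖ u) (hD : DivisibleDivisor B p u) (η : B) :
    ∃ b : F', IsIntegral B b ∧ InPiO ϖ (b - kummerIdem p η z) := by
  classical
  have h1ns : (1 : B) ∉ Ideal.span {ϖ} := by
    rw [Ideal.mem_span_singleton]
    exact fun h => hϖ.not_isUnit (isUnit_of_dvd_one h)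
  let I : Ideal B :=
    { carrier := {d | ∃ b : F', IsIntegral B b ∧
        InPiO ϖ (b - algebraMap B F' d * kummerIdem p η z)}
      add_mem' := by
        rintro d₁ d₂ ⟨b₁, hb₁, h₁⟩ ⟨b₂, hb₂, h₂⟩
        refine ⟨b₁ + b₂, hb₁.add hb₂, ?_⟩
        have := inPiO_add hϖ h₁ h₂
        rw [map_add]
        convert this using 1
        ring
      zero_mem' := by
        refine ⟨0, isIntegral_zero, 1, h1ns, 0, isIntegral_zero, ?_⟩
        simp
      smul_mem' := by
        rintro x d ⟨b, hb, h⟩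
        refine ⟨algebraMap B F' x * b, isIntegral_algebraMap.mul hb, ?_⟩
        have := inPiO_smul x h
        rw [smul_eq_mul, map_mul]
        convert this using 1
        ring }
  have hϖI : ϖ ∈ I := by
    obtain ⟨s, hs, hint⟩ := exists_mul_kummerIdem_integral ϖ p hpu u z hz h1 hϖ η
    refine ⟨0, isIntegral_zero, s, hs, -(algebraMap B F' s * kummerIdem p η z), hint.neg, ?_⟩
    ring
  have hI : I = ⊤ := by
    refine ideal_eq_top_of_local ϖ I hϖI fun 𝔪 hmax hm => ?_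
    have := hmax.isPrime
    obtain ⟨d, hd, b, hb, h⟩ := exists_lift_at ϖ hϖ 𝔪 hm (hreg 𝔪 hmax hm) p hpu u z hz h1 hD η
    exact ⟨d, ⟨b, hb, h⟩, hd⟩
  have h1I : (1 : B) ∈ I := by rw [hI]; trivial
  obtain ⟨b, hb, h⟩ := h1I
  refine ⟨b, hb, ?_⟩
  rwa [map_one, one_mul] at h

/-- Unmixedness at a closed point of the special fibre. -/
theorem exists_unmixed_at (ϖ : B) (hϖ : Prime ϖ) (𝔪 : Ideal B) [𝔪.IsPrime] (hm : ϖ ∈ 𝔪)
    (hreg : ∃ t ∈ 𝔪, ∀ a ∈ 𝔪, ∃ s : B, s ∉ 𝔪 ∧ s * a ∈ Ideal.span {ϖ, t})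
    (p : ℕ) (hpu : IsUnit (p : B)) (u : F) (z : F') (hz : z ^ p = algebraMap F F' u)
    (h1 : OneModPi ϖ u) (hD : DivisibleDivisor B p u)
    (c : F') (hcz : c ∈ IntermediateField.adjoin F {z}) (hc : IsIntegral B c)
    (hcϖ : InPiO ϖ c) :
    ∃ d : B, d ∉ 𝔪 ∧ IsIntegral B (algebraMap B F' d * (c / algebraMap B F' ϖ)) := by
  classical
  have hloc : IsLocalRing (locSub F 𝔪) := IsLocalization.AtPrime.isLocalRing _ 𝔪
  have hnoeth : IsNoetherianRing (locSub F 𝔪) :=
    IsLocalization.isNoetherianRing 𝔪.primeCompl _ inferInstance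
  have hPIR := loc_isPrincipalIdealRing_quotient 𝔪 (locSub F 𝔪) hϖ hm hreg
  have hpuR : IsUnit ((p : ℕ) : locSub F 𝔪) := by
    have := hpu.map (algebraMap B (locSub F 𝔪))
    rwa [map_natCast] at this
  have hinj : Function.Injective (algebraMap B F') := by
    rw [IsScalarTower.algebraMap_eq B F F']
    exact (algebraMap F F').injective.comp (IsFractionRing.injective B F)
  have hϖF : algebraMap B F' ϖ ≠ 0 := fun h => hϖ.ne_zero (hinj (by rw [h, map_zero]))
  obtain ⟨s, hs, c'', hc'', hsc⟩ := hcϖ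
  have hcϖR : ∃ s : locSub F 𝔪, ¬ algebraMap B (locSub F 𝔪) ϖ ∣ s ∧ ∃ c'' : F',
      IsIntegral (locSub F 𝔪) c'' ∧
        algebraMap (locSub F 𝔪) F' s * c =
          algebraMap (locSub F 𝔪) F' (algebraMap B (locSub F 𝔪) ϖ) * c'' := by
    refine ⟨algebraMap B _ s, ?_, c'', hc''.tower_top, ?_⟩
    · rw [loc_dvd_iff 𝔪 _ hϖ hm]
      rwa [Ideal.mem_span_singleton] at hs
    · rw [← IsScalarTower.algebraMap_apply B (locSub F 𝔪) F',
        ← IsScalarTower.algebraMap_apply B (locSub F 𝔪) F', hsc]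
  obtain ⟨c', hc', hcc'⟩ :=
    local_unmixed (R := locSub F 𝔪) (K := F) (L := F') (algebraMap B _ ϖ)
      (loc_prime 𝔪 _ hϖ hm) p hpuR u z hz (loc_oneModPi 𝔪 hϖ hm h1)
      (fun f hf => loc_hdiv 𝔪 (locSub F 𝔪) p u hD f hf) c hcz hc.tower_top hcϖR
  rw [← IsScalarTower.algebraMap_apply B (locSub F 𝔪) F'] at hcc'
  have hx : c / algebraMap B F' ϖ = c' := by
    rw [hcc']
    field_simp
  obtain ⟨d, hd⟩ := IsIntegral.exists_multiple_integral_of_isLocalization 𝔪.primeCompl c' hc'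
  refine ⟨d, d.2, ?_⟩
  rw [hx]
  have : d • c' = algebraMap B F' d * c' := by
    rw [Submonoid.smul_def, Algebra.smul_def]
  rwa [this] at hd

/-- **Kummer unmixedness** (universe polymorphic form of `H754.KummerUnmixedStatement`). -/
theorem kummerUnmixed (ϖ : B) (hϖ : Prime ϖ) (hreg : RegularAlong ϖ)
    (p : ℕ) (hpu : IsUnit (p : B)) (u : F) (z : F') (hz : z ^ p = algebraMap F F' u)
    (h1 : OneModPi ϖ u) (hD : DivisibleDivisor B p u)
    (c : F') (hcz : c ∈ IntermediateField.adjoin F {z}) (hc : IsIntegral B c)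
    (hcϖ : InPiO ϖ c) :
    ∃ c' : F', IsIntegral B c' ∧ c = algebraMap B F' ϖ * c' := by
  classical
  have hinj : Function.Injective (algebraMap B F') := by
    rw [IsScalarTower.algebraMap_eq B F F']
    exact (algebraMap F F').injective.comp (IsFractionRing.injective B F)
  have hϖF : algebraMap B F' ϖ ≠ 0 := fun h => hϖ.ne_zero (hinj (by rw [h, map_zero]))
  let J : Ideal B :=
    { carrier := {d | IsIntegral B (algebraMap B F' d * (c / algebraMap B F' ϖ))}
      add_mem' := by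
        intro d₁ d₂ h₁ h₂
        change IsIntegral B _
        rw [map_add, add_mul]
        exact h₁.add h₂
      zero_mem' := by
        change IsIntegral B _
        rw [map_zero, zero_mul]
        exact isIntegral_zero
      smul_mem' := by
        intro x d h
        change IsIntegral B _
        rw [smul_eq_mul, map_mul, mul_assoc]
        exact isIntegral_algebraMap.mul h }
  have hϖJ : ϖ ∈ J := by
    change IsIntegral B _
    rw [mul_div_cancel₀ _ hϖF]
    exact hc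
  have hJ : J = ⊤ := by
    refine ideal_eq_top_of_local ϖ J hϖJ fun 𝔪 hmax hm => ?_
    have := hmax.isPrime
    obtain ⟨d, hd, h⟩ :=
      exists_unmixed_at ϖ hϖ 𝔪 hm (hreg 𝔪 hmax hm) p hpu u z hz h1 hD c hcz hc hcϖ
    exact ⟨d, h, hd⟩
  have h1J : (1 : B) ∈ J := by rw [hJ]; trivial
  have hint : IsIntegral B (c / algebraMap B F' ϖ) := by
    have : IsIntegral B (algebraMap B F' 1 * (c / algebraMap B F' ϖ)) := h1J
    rwa [map_one, one_mul] at this
  exact ⟨c / algebraMap B F' ϖ, hint, by field_simp⟩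

end Global

/-- **P5 (b)**: the unmixedness statement of `H754/KummerSpec.lean`. -/
theorem kummerUnmixedStatement : KummerUnmixedStatement := by
  intro B _ _ _ _ F _ _ _ F' _ _ _ _ ϖ hϖ hreg p _ hpu u z hz _ h1 hD c hcz hc hcϖ
  exact kummerUnmixed ϖ hϖ hreg p hpu u z hz h1 hD c hcz hc hcϖ

/-- **P5 (a)**: the lifting statement of `H754/KummerSpec.lean`. -/
theorem kummerLiftStatement : KummerLiftStatement := by
  intro B _ _ _ _ F _ _ _ F' _ _ _ _ ϖ hϖ hreg p _ hpu u z hz _ h1 hD η _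
  exact kummerLift ϖ hϖ hreg p hpu u z hz h1 hD η

end Fermat.Agent.S18.H514
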